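/-
S41 library, block NE (helper5), brick NE1: over an algebraically closed field of characteristic
zero the `n`-torsion of an elliptic curve has exactly `n ^ 2` elements.

Route: `x (n • P) = A_n (x P) / B_n (x P)` for the ladder polynomials `A_n` (monic of degree `n²`)
and `B_n` (degree `n² - 1`).  In characteristic zero `A_n - c B_n` is separable for all but
finitely many `c`, so the fibre of `[n]` over a generic point `Q = (c, d)` (with `2 Q ≠ 0`) is in
bijection with the `n²` roots of `A_n - c B_n`; and every nonempty fibre is a coset of `E[n]`.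
-/
import Mathlib
import Fermat.Agent.S13lib.LadderTorsion

set_option autoImplicit false
set_option linter.unusedSectionVars false

namespace Fermat.Agent.S41lib.NE

open WeierstrassCurve Polynomial
open Fermat.Agent.S13lib

section eval

variable {R : Type*} [CommRing R] (W : WeierstrassCurve R)

/-- Numerator of the multiplication-by-`n` map on `x`-coordinates. -/
noncomputable def ladA (n : ℕ) : R[X] := (ladPoly W n).1.1

/-- Denominator of the multiplication-by-`n` map on `x`-coordinates. -/
noncomputable def ladB (n : ℕ) : R[X] := (ladPoly W n).1.2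

lemma ladA_eval (x : R) (n : ℕ) : (ladA W n).eval x = (lad W.b₂ W.b₄ W.b₆ W.b₈ x n).1.1 := by
  have := lad_map (evalRingHom x) (C W.b₂) (C W.b₄) (C W.b₆) (C W.b₈) (X : R[X]) n
  simp only [coe_evalRingHom, eval_C, eval_X] at this
  rw [this]; rfl

lemma ladB_eval (x : R) (n : ℕ) : (ladB W n).eval x = (lad W.b₂ W.b₄ W.b₆ W.b₈ x n).1.2 := by
  have := lad_map (evalRingHom x) (C W.b₂) (C W.b₄) (C W.b₆) (C W.b₈) (X : R[X]) n
  simp only [coe_evalRingHom, eval_C, eval_X] at this
  rw [this]; rfl

lemma isLead_derivative {p : R[X]} {k : ℕ} {c : R} (hp : IsLead p (k + 1) c) :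
    IsLead (derivative p) k (c * ((k : R) + 1)) := by
  refine ⟨?_, ?_⟩
  · have h1 := natDegree_derivative_le p
    have h2 := hp.1
    omega
  · rw [coeff_derivative, hp.2]

/-- Degree data of `ladA`, `ladB` for `n ≥ 2`. -/
lemma ladAB_isLead (n : ℕ) (hn : 2 ≤ n) :
    ∃ a'' : ℕ, n ^ 2 = a'' + 2 ∧ IsLead (ladA W n) (a'' + 2) 1 ∧
      IsLead (ladB W n) (a'' + 1) ((n : R) ^ 2) := by
  obtain ⟨a', b', ha, -, hX₁, hZ₁, -, -⟩ := ladInv W n (by omega)
  have h4 : 4 ≤ n ^ 2 := by nlinarith
  obtain ⟨a'', rfl⟩ : ∃ a'', a' = a'' + 1 := ⟨a' - 1, by omega⟩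
  exact ⟨a'', ha, hX₁, hZ₁⟩

end eval


section wronskian

variable {K : Type*} [Field K] [CharZero K] (W : WeierstrassCurve K)

/-- The Wronskian of the pair `(A_n, B_n)`. -/
noncomputable def ladWr (n : ℕ) : K[X] :=
  derivative (ladA W n) * ladB W n - ladA W n * derivative (ladB W n)

lemma ladWr_ne_zero (n : ℕ) (hn : 2 ≤ n) : ladWr W n ≠ 0 := by
  obtain ⟨a'', ha, hA, hB⟩ := ladAB_isLead W n hn
  have hA' := isLead_derivative hA
  have hB' := isLead_derivative hB
  have h1 := hA'.mul hB
  have h2 := hA.mul hB'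
  have h3 := h1.sub (h2.congr (by ring) rfl)
  intro h0
  have h4 := h3.2
  rw [ladWr] at h0
  rw [h0, coeff_zero] at h4
  have hn0 : ((n : K)) ^ 2 ≠ 0 := pow_ne_zero 2 (Nat.cast_ne_zero.mpr (by omega))
  apply hn0
  push_cast at h4
  linear_combination -h4

lemma ladA_monic (n : ℕ) (hn : 2 ≤ n) : (ladA W n).Monic ∧ (ladA W n).natDegree = n ^ 2 := by
  obtain ⟨a'', ha, hA, -⟩ := ladAB_isLead W n hn
  have hdeg : (ladA W n).natDegree = a'' + 2 := by
    refine le_antisymm hA.1 ?_
    apply le_natDegree_of_ne_zero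
    rw [hA.2]; exact one_ne_zero
  refine ⟨?_, by rw [hdeg, ha]⟩
  rw [Monic, leadingCoeff, hdeg, hA.2]

lemma ladB_natDegree_lt (n : ℕ) (hn : 2 ≤ n) : (ladB W n).natDegree < n ^ 2 := by
  obtain ⟨a'', ha, -, hB⟩ := ladAB_isLead W n hn
  have := hB.1
  omega

/-- The polynomial `A_n - c B_n` whose roots are the `x`-coordinates of the points `P` with
`x (n • P) = c`. -/
noncomputable def ladFib (n : ℕ) (c : K) : K[X] := ladA W n - C c * ladB W n

lemma ladFib_monic (n : ℕ) (hn : 2 ≤ n) (c : K) :
    (ladFib W n c).Monic ∧ (ladFib W n c).natDegree = n ^ 2 := by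
  obtain ⟨hm, hd⟩ := ladA_monic W n hn
  have hlt : (C c * ladB W n).natDegree < (ladA W n).natDegree := by
    rw [hd]
    exact lt_of_le_of_lt (natDegree_C_mul_le _ _) (ladB_natDegree_lt W n hn)
  have hlt' : (C c * ladB W n).degree < (ladA W n).degree := by
    rw [degree_eq_natDegree hm.ne_zero]
    exact lt_of_le_of_lt degree_le_natDegree (by exact_mod_cast hlt)
  refine ⟨hm.sub_of_left hlt', ?_⟩
  rw [ladFib, natDegree_sub_eq_left_of_natDegree_lt hlt, hd]

end wronskian


section count

variable {K : Type*} [Field K] [DecidableEq K] [IsAlgClosed K] (W : Affine K)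

/-- The ladder invariant in terms of `ladA`, `ladB`. -/
lemma xrep_ladAB {x y : K} (h : W.Nonsingular x y) (n : ℕ) :
    XRep W ((ladA W n).eval x) ((ladB W n).eval x) (n • Affine.Point.some x y h) := by
  rw [ladA_eval, ladB_eval]
  exact (lad_xrep h n).1

lemma ladAB_not_both_zero (hΔ : W.Δ ≠ 0) (n : ℕ) (x : K) :
    (ladA W n).eval x ≠ 0 ∨ (ladB W n).eval x ≠ 0 := by
  obtain ⟨y, hy⟩ := exists_equation_of_x W x
  have hns : W.Nonsingular x y := (Affine.equation_iff_nonsingular_of_Δ_ne_zero hΔ).mp hy
  have hx := xrep_ladAB W hns n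
  generalize n • Affine.Point.some x y hns = Q at hx
  cases Q with
  | zero => exact Or.inl hx.2
  | some x' y' h' => exact Or.inr hx.1

/-- `x (n • P) = c` iff `x P` is a root of `A_n - c B_n`. -/
lemma nsmul_eq_or_neg_iff {x y c d : K} (h : W.Nonsingular x y) (hQ : W.Nonsingular c d)
    (n : ℕ) :
    (n • Affine.Point.some x y h = Affine.Point.some c d hQ ∨
      n • Affine.Point.some x y h = -Affine.Point.some c d hQ) ↔
      (ladFib W n c).eval x = 0 := by
  have hx := xrep_ladAB W h n
  have hev : (ladFib W n c).eval x = (ladA W n).eval x - c * (ladB W n).eval x := by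
    simp [ladFib]
  rw [hev]
  constructor
  · rintro (h1 | h1)
    · rw [h1] at hx
      obtain ⟨-, h2⟩ := hx
      rw [h2]; ring
    · rw [h1, Affine.Point.neg_some] at hx
      obtain ⟨-, h2⟩ := hx
      rw [h2]; ring
  · intro h0
    generalize n • Affine.Point.some x y h = R at hx
    cases R with
    | zero =>
      exfalso
      obtain ⟨h1, h2⟩ := hx
      rw [h1, mul_zero, sub_zero] at h0
      exact h2 h0
    | some x' y' h' =>
      obtain ⟨h1, h2⟩ := hx
      have hx' : x' = c := by
        have : (x' - c) * (ladB W n).eval x = 0 := by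
          rw [h2] at h0; linear_combination h0
        rcases mul_eq_zero.mp this with h3 | h3
        · exact sub_eq_zero.mp h3
        · exact absurd h3 h1
      subst hx'
      exact eq_or_eq_neg_of_X_eq W h' hQ


variable [CharZero K]

/-- `A_n - c B_n` has simple roots as soon as it has no common root with the Wronskian. -/
lemma ladFib_roots_nodup (n : ℕ) (hn : 2 ≤ n) (c : K)
    (hc : ∀ x₀ : K, (ladWr W n).eval x₀ = 0 → (ladFib W n c).eval x₀ ≠ 0) :
    (ladFib W n c).roots.Nodup := by
  have hne : ladFib W n c ≠ 0 := (ladFib_monic W n hn c).1.ne_zero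
  rw [Multiset.nodup_iff_count_le_one]
  intro x₀
  rw [count_roots]
  by_contra hcon
  rw [not_le] at hcon
  obtain ⟨h1, h2⟩ := (one_lt_rootMultiplicity_iff_isRoot hne).mp hcon
  apply hc x₀ _ h1
  have e1 : (ladA W n).eval x₀ = c * (ladB W n).eval x₀ := by
    have : (ladFib W n c).eval x₀ = 0 := h1
    simp only [ladFib, eval_sub, eval_mul, eval_C] at this
    linear_combination this
  have e2 : (derivative (ladA W n)).eval x₀ = c * (derivative (ladB W n)).eval x₀ := by
    have : (derivative (ladFib W n c)).eval x₀ = 0 := h2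
    simp only [ladFib, derivative_sub, derivative_mul, derivative_C, zero_mul, zero_add, eval_sub,
      eval_mul, eval_C] at this
    linear_combination this
  simp only [ladWr, eval_sub, eval_mul, e1, e2]
  ring

lemma card_ladFib_roots (n : ℕ) (hn : 2 ≤ n) (c : K)
    (hc : ∀ x₀ : K, (ladWr W n).eval x₀ = 0 → (ladFib W n c).eval x₀ ≠ 0) :
    (ladFib W n c).roots.toFinset.card = n ^ 2 := by
  rw [Multiset.toFinset_card_of_nodup (ladFib_roots_nodup W n hn c hc),
    ← (ladFib_monic W n hn c).2]
  exact splits_iff_card_roots.mp (IsAlgClosed.splits _)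

/-- The 2-division polynomial `4x³ + b₂x² + 2b₄x + b₆`. -/
noncomputable def psi2sq : K[X] :=
  C 4 * X ^ 3 + C W.b₂ * X ^ 2 + C (2 * W.b₄) * X + C W.b₆

lemma psi2sq_ne_zero : psi2sq W ≠ 0 := by
  intro h0
  have : (psi2sq W).coeff 3 = 4 := by
    simp [psi2sq]
  rw [h0, coeff_zero] at this
  exact (by norm_num : (4 : K) ≠ 0) this.symm

lemma psi2sq_eval (c : K) :
    (psi2sq W).eval c = 4 * c ^ 3 + W.b₂ * c ^ 2 + 2 * W.b₄ * c + W.b₆ := by
  simp [psi2sq]

/-- A generic value `c`. -/
lemma exists_generic (hΔ : W.Δ ≠ 0) (n : ℕ) (hn : 2 ≤ n) :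
    ∃ c : K, (∀ x₀ : K, (ladWr W n).eval x₀ = 0 → (ladFib W n c).eval x₀ ≠ 0) ∧
      (psi2sq W).eval c ≠ 0 := by
  classical
  set bad : Finset K := ((ladWr W n).roots.toFinset.image
    fun x₀ => (ladA W n).eval x₀ / (ladB W n).eval x₀) ∪ (psi2sq W).roots.toFinset with hbad
  obtain ⟨c, hcbad⟩ := Infinite.exists_notMem_finset bad
  rw [hbad, Finset.mem_union, not_or] at hcbad
  obtain ⟨hc1, hc2⟩ := hcbad
  refine ⟨c, ?_, ?_⟩
  · intro x₀ hx₀ h0
    have e1 : (ladA W n).eval x₀ = c * (ladB W n).eval x₀ := by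
      simp only [ladFib, eval_sub, eval_mul, eval_C] at h0
      linear_combination h0
    have hB : (ladB W n).eval x₀ ≠ 0 := by
      intro hB0
      rcases ladAB_not_both_zero W hΔ n x₀ with h | h
      · rw [e1, hB0, mul_zero] at h; exact h rfl
      · exact h hB0
    apply hc1
    rw [Finset.mem_image]
    refine ⟨x₀, ?_, ?_⟩
    · rw [Multiset.mem_toFinset, mem_roots (ladWr_ne_zero W n hn)]
      exact hx₀
    · rw [e1]; field_simp
  · intro h0
    apply hc2
    rw [Multiset.mem_toFinset, mem_roots (psi2sq_ne_zero W)]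
    exact h0


/-- The `x`-coordinate of a point (junk value `0` at infinity). -/
def xOf : W.Point → K
  | .zero => 0
  | .some x _ _ => x

omit [IsAlgClosed K] [CharZero K] in
@[simp] lemma xOf_some {x y : K} (h : W.Nonsingular x y) :
    xOf W (Affine.Point.some x y h) = x := rfl

/-- The fibre of `[n]` over a generic point has `n ^ 2` elements. -/
theorem card_fibre_eq (hΔ : W.Δ ≠ 0) (n : ℕ) (hn : 2 ≤ n) {c d : K} (hQ : W.Nonsingular c d)
    (hc : ∀ x₀ : K, (ladWr W n).eval x₀ = 0 → (ladFib W n c).eval x₀ ≠ 0)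
    (h2 : d ≠ W.negY c d) :
    Nat.card {P : W.Point // n • P = Affine.Point.some c d hQ} = n ^ 2 := by
  classical
  have hne : ladFib W n c ≠ 0 := (ladFib_monic W n hn c).1.ne_zero
  have hQne : Affine.Point.some c d hQ ≠ -Affine.Point.some c d hQ := by
    rw [Affine.Point.neg_some]
    intro h
    injection h with _ h'
    exact h2 h'
  have key : ∀ P : W.Point, n • P = Affine.Point.some c d hQ →
      xOf W P ∈ (ladFib W n c).roots.toFinset := by
    intro P hP
    cases P with
    | zero =>
      exfalso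
      have h0 : n • (Affine.Point.zero : W.Point) = 0 := by
        rw [← Affine.Point.zero_def, smul_zero]
      rw [h0] at hP
      exact Affine.Point.some_ne_zero hQ hP.symm
    | some x y h =>
      rw [Multiset.mem_toFinset, mem_roots hne]
      exact (nsmul_eq_or_neg_iff W h hQ n).mp (Or.inl hP)
  let f : {P : W.Point // n • P = Affine.Point.some c d hQ} →
      ↥((ladFib W n c).roots.toFinset) := fun P => ⟨xOf W P.1, key P.1 P.2⟩
  have hf : Function.Bijective f := by
    constructor
    · rintro ⟨P, hP⟩ ⟨P', hP'⟩ hPP'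
      have hx : xOf W P = xOf W P' := congrArg Subtype.val hPP'
      apply Subtype.ext
      show P = P'
      cases P with
      | zero =>
        exfalso
        have h0 : n • (Affine.Point.zero : W.Point) = 0 := by
          rw [← Affine.Point.zero_def, smul_zero]
        rw [h0] at hP
        exact Affine.Point.some_ne_zero hQ hP.symm
      | some x y h =>
        cases P' with
        | zero =>
          exfalso
          have h0 : n • (Affine.Point.zero : W.Point) = 0 := by
            rw [← Affine.Point.zero_def, smul_zero]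
          rw [h0] at hP'
          exact Affine.Point.some_ne_zero hQ hP'.symm
        | some x' y' h' =>
          have hxx : x = x' := hx
          subst hxx
          rcases eq_or_eq_neg_of_X_eq W h h' with e | e
          · exact e
          · exfalso
            rw [e, smul_neg, hP'] at hP
            exact hQne hP.symm
    · rintro ⟨x, hx⟩
      rw [Multiset.mem_toFinset, mem_roots hne] at hx
      obtain ⟨y, hy⟩ := exists_equation_of_x W x
      have hns : W.Nonsingular x y := (Affine.equation_iff_nonsingular_of_Δ_ne_zero hΔ).mp hy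
      rcases (nsmul_eq_or_neg_iff W hns hQ n).mpr hx with e | e
      · exact ⟨⟨Affine.Point.some x y hns, e⟩, rfl⟩
      · refine ⟨⟨-Affine.Point.some x y hns, by rw [smul_neg, e, neg_neg]⟩, ?_⟩
        apply Subtype.ext
        show xOf W (-Affine.Point.some x y hns) = x
        rw [Affine.Point.neg_some, xOf_some]
  rw [Nat.card_eq_of_bijective f hf, Nat.card_eq_finsetCard]
  exact card_ladFib_roots W n hn c hc

/-- **Brick NE1.** Over an algebraically closed field of characteristic zero, the `n`-torsion of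
an elliptic curve has exactly `n ^ 2` elements. -/
theorem card_torsionBy_eq_sq (hΔ : W.Δ ≠ 0) (n : ℕ) (hn : 2 ≤ n) :
    Nat.card (Submodule.torsionBy ℤ W.Point n) = n ^ 2 := by
  obtain ⟨c, hc1, hc2⟩ := exists_generic W hΔ n hn
  obtain ⟨d, hd⟩ := exists_equation_of_x W c
  have hQ : W.Nonsingular c d := (Affine.equation_iff_nonsingular_of_Δ_ne_zero hΔ).mp hd
  have h2 : d ≠ W.negY c d := by
    intro h
    apply hc2
    rw [psi2sq_eval, psi2sq_eq hd, ← h, sub_self]
    ring
  have hcard := card_fibre_eq W hΔ n hn hQ hc1 h2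
  -- the fibre is nonempty
  have hne : Nonempty {P : W.Point // n • P = Affine.Point.some c d hQ} := by
    by_contra hempty
    rw [not_nonempty_iff] at hempty
    rw [Nat.card_of_isEmpty] at hcard
    have : 0 < n ^ 2 := by positivity
    omega
  obtain ⟨⟨P₀, hP₀⟩⟩ := hne
  rw [← hcard]
  refine Nat.card_congr
    { toFun := fun R => ⟨P₀ + R.1, ?_⟩
      invFun := fun P => ⟨P.1 - P₀, ?_⟩
      left_inv := ?_
      right_inv := ?_ }
  · have hR := R.2
    rw [Submodule.mem_torsionBy_iff, natCast_zsmul] at hR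
    rw [smul_add, hP₀, hR, add_zero]
  · rw [Submodule.mem_torsionBy_iff, natCast_zsmul, smul_sub, P.2, hP₀, sub_self]
  · intro R
    apply Subtype.ext
    show P₀ + R.1 - P₀ = R.1
    abel
  · intro P
    apply Subtype.ext
    show P₀ + (P.1 - P₀) = P.1
    abel

end count

end Fermat.Agent.S41lib.NE
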