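/-
S41 library, block NE (helper5), brick NE2a: lifting torsion points from the reduction.

Over an algebraically closed valued field, on an integral Weierstrass model with unit
discriminant, every "approximate" point `(a, b)` (a point modulo the maximal ideal) whose
`x`-coordinate is an approximate root of the ladder polynomial of odd order `n = 2m+1` (a unit)
is congruent to an honest `n`-torsion point.  A torsion point congruent to a point with
coordinates in the base field is fixed by the decomposition group.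
-/
import Mathlib
import Fermat.Agent.S13lib.LadderTorsion
import Fermat.Agent.S05lib.GoodRed

set_option autoImplicit false

namespace Fermat.Agent.S41lib.NE

open WeierstrassCurve WeierstrassCurve.Affine WeierstrassCurve.Affine.Point Polynomial
open Fermat.Agent.S05lib Fermat.Agent.S13lib

section valuation

variable {K : Type*} [Field K] {Γ₀ : Type*} [LinearOrderedCommGroupWithZero Γ₀]
variable {v : Valuation K Γ₀}

lemma val_mul_lt_one_of_lt_of_le {z w : K} (hz : v z < 1) (hw : v w ≤ 1) : v (z * w) < 1 := by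
  rw [map_mul]
  calc v z * v w ≤ v z * 1 := mul_le_mul' le_rfl hw
    _ = v z := mul_one _
    _ < 1 := hz

lemma val_add_lt_one {z w : K} (hz : v z < 1) (hw : v w < 1) : v (z + w) < 1 :=
  lt_of_le_of_lt (v.map_add _ _) (max_lt hz hw)

lemma val_sub_lt_one {z w : K} (hz : v z < 1) (hw : v w < 1) : v (z - w) < 1 :=
  lt_of_le_of_lt (v.map_sub _ _) (max_lt hz hw)

/-- If a product of a multiset has valuation `< 1`, so has one of the factors. -/
lemma exists_val_lt_one_of_prod (s : Multiset K) (h : v s.prod < 1) : ∃ z ∈ s, v z < 1 := by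
  by_contra hcon
  simp only [not_exists, not_and, not_lt] at hcon
  have : 1 ≤ (s.map v).prod := Multiset.one_le_prod_of_one_le (by
    intro x hx
    obtain ⟨z, hz, rfl⟩ := Multiset.mem_map.mp hx
    exact hcon z hz)
  rw [← map_multiset_prod] at this
  exact absurd h (not_lt.mpr this)

end valuation

section lift

variable {K : Type*} [Field K] [DecidableEq K] {Γ₀ : Type*} [LinearOrderedCommGroupWithZero Γ₀]
variable {v : Valuation K Γ₀} {W : Affine K}

/-- **Lifting of torsion points.** -/
theorem exists_torsion_lift [IsAlgClosed K] (hW : IntegralModel v W) (hΔ : v W.Δ = 1) (m : ℕ)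
    (hm : v (2 * (m : K) + 1) = 1) {a b : K} (ha : v a ≤ 1) (hb : v b ≤ 1)
    (heq : v (b ^ 2 + W.a₁ * a * b + W.a₃ * b - (a ^ 3 + W.a₂ * a ^ 2 + W.a₄ * a + W.a₆)) < 1)
    (htors : v ((ladF W m).eval a) < 1) :
    ∃ (x y : K) (h : W.Nonsingular x y),
      (2 * m + 1) • Point.some x y h = 0 ∧ v (x - a) < 1 ∧ v (y - b) < 1 := by
  have hΔ0 : W.Δ ≠ 0 := by
    intro h0; rw [h0, _root_.map_zero] at hΔ; exact zero_ne_one hΔ
  have hm0 : (2 * (m : K) + 1) ≠ 0 := by
    intro h0; rw [h0, _root_.map_zero] at hm; exact zero_ne_one hm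
  -- a root of the ladder polynomial congruent to `a`
  obtain ⟨x, hxroot, hxa⟩ : ∃ x : K, (ladF W m).eval x = 0 ∧ v (a - x) < 1 := by
    have hsplit := (IsAlgClosed.splits (ladF W m)).eval_eq_prod_roots a
    rw [ladF_leadingCoeff W m hm0] at hsplit
    rw [hsplit, map_mul, hm, one_mul] at htors
    obtain ⟨z, hz, hvz⟩ := exists_val_lt_one_of_prod _ htors
    obtain ⟨x, hx, rfl⟩ := Multiset.mem_map.mp hz
    exact ⟨x, (mem_roots'.mp hx).2, hvz⟩
  have hxa' : v (x - a) < 1 := by rwa [Valuation.map_sub_swap]
  have hx1 : v x ≤ 1 := by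
    have e : x = (x - a) + a := by ring
    rw [e]
    exact v.map_add_le hxa'.le ha
  obtain ⟨y, hy⟩ := exists_equation_of_x W x
  have hns : W.Nonsingular x y := (Affine.equation_iff_nonsingular_of_Δ_ne_zero hΔ0).mp hy
  have htorsP : (2 * m + 1) • Point.some x y hns = 0 :=
    (odd_nsmul_eq_zero_iff_ladF W hns m).mpr hxroot
  have hy1 : v y ≤ 1 := val_y_le_one_of_val_x_le_one hW hy hx1
  -- the quadratic in `Y`
  have hquad : (b - y) * (b - W.negY x y) =
      (b ^ 2 + W.a₁ * a * b + W.a₃ * b - (a ^ 3 + W.a₂ * a ^ 2 + W.a₄ * a + W.a₆)) +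
        (x - a) * (W.a₁ * b - (x ^ 2 + x * a + a ^ 2 + W.a₂ * (x + a) + W.a₄)) := by
    rw [Affine.equation_iff] at hy
    simp only [Affine.negY]
    linear_combination (-1 : K) * hy
  have hcof : v (W.a₁ * b - (x ^ 2 + x * a + a ^ 2 + W.a₂ * (x + a) + W.a₄)) ≤ 1 := by
    have hI : ∀ z : K, v z ≤ 1 ↔ z ∈ v.integer := fun z => Iff.rfl
    simp only [hI] at *
    exact Subring.sub_mem _ (Subring.mul_mem _ hW.a₁ hb)
      (Subring.add_mem _ (Subring.add_mem _ (Subring.add_mem _ (Subring.add_mem _
        (Subring.pow_mem _ hx1 2) (Subring.mul_mem _ hx1 ha)) (Subring.pow_mem _ ha 2))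
        (Subring.mul_mem _ hW.a₂ (Subring.add_mem _ hx1 ha))) hW.a₄)
  have hprod : v ((b - y) * (b - W.negY x y)) < 1 := by
    rw [hquad]
    exact val_add_lt_one heq (val_mul_lt_one_of_lt_of_le hxa' hcof)
  rw [map_mul] at hprod
  have hor : v (b - y) < 1 ∨ v (b - W.negY x y) < 1 := by
    by_contra hcon
    rw [not_or, not_lt, not_lt] at hcon
    have : (1 : Γ₀) ≤ v (b - y) * v (b - W.negY x y) := by
      calc (1 : Γ₀) = 1 * 1 := (one_mul 1).symm
        _ ≤ v (b - y) * v (b - W.negY x y) := mul_le_mul' hcon.1 hcon.2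
    exact absurd hprod (not_lt.mpr this)
  rcases hor with h1 | h1
  · exact ⟨x, y, hns, htorsP, hxa', by rwa [Valuation.map_sub_swap]⟩
  · have hns' : W.Nonsingular x (W.negY x y) := (Affine.nonsingular_neg x y).mpr hns
    refine ⟨x, W.negY x y, hns', ?_, hxa', by rwa [Valuation.map_sub_swap]⟩
    have e : Point.some x (W.negY x y) hns' = -Point.some x y hns := by
      rw [Point.neg_some]
    rw [e, smul_neg, htorsP, _root_.neg_zero]

end lift


section decomposition

universe u

variable {F : Type*} {L : Type u} [Field F] [Field L] [Algebra F L] (A : ValuationSubring L)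

/-- Elements of the decomposition group preserve the maximal ideal. -/
theorem decomposition_val_lt_one_iff {σ : L ≃ₐ[F] L} (hσ : σ ∈ A.decompositionSubgroup F)
    (z : L) : A.valuation (σ z) < 1 ↔ A.valuation z < 1 := by
  by_cases hz : z = 0
  · subst hz; simp
  · have hσz : σ z ≠ 0 := by
      intro h; exact hz (by simpa using h)
    rw [Valuation.val_lt_one_iff _ hσz, Valuation.val_lt_one_iff _ hz, ← not_le, ← not_le,
      A.valuation_le_one_iff, A.valuation_le_one_iff, ← map_inv₀]
    exact not_congr (decomposition_mem_iff A ⟨σ, hσ⟩ z⁻¹)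

theorem decomposition_val_le_one_iff {σ : L ≃ₐ[F] L} (hσ : σ ∈ A.decompositionSubgroup F)
    (z : L) : A.valuation (σ z) ≤ 1 ↔ A.valuation z ≤ 1 := by
  rw [A.valuation_le_one_iff, A.valuation_le_one_iff]
  exact decomposition_mem_iff A ⟨σ, hσ⟩ z

variable [DecidableEq L] {W : Affine F}

/-- A torsion point (of order a unit at `A`) on a model with good reduction which is congruent
to a point with coordinates in the base field is fixed by the decomposition group of `A`. -/
theorem smul_eq_self_of_congr_base (hW : IntegralModel A.valuation (W⁄L))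
    (hΔ : A.valuation (W⁄L).Δ = 1) {n : ℕ} (hn : A.valuation (n : L) = 1) {x y : L}
    (h : (W⁄L).Nonsingular x y) (htors : n • Point.some x y h = 0) (a b : F)
    (hxa : A.valuation (x - algebraMap F L a) < 1) (hyb : A.valuation (y - algebraMap F L b) < 1)
    {σ : L ≃ₐ[F] L} (hσ : σ ∈ A.decompositionSubgroup F) :
    σ • Point.some x y h = Point.some x y h := by
  have hx := val_x_le_one_of_nsmul_eq_zero hW h hn htors
  have hy := val_y_le_one_of_val_x_le_one hW h.1 hx
  have hσx : A.valuation (σ x) ≤ 1 := (decomposition_val_le_one_iff A hσ x).mpr hx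
  have hσy : A.valuation (σ y) ≤ 1 := (decomposition_val_le_one_iff A hσ y).mpr hy
  have hdx : A.valuation (x - σ x) < 1 := by
    have e : x - σ x = (x - algebraMap F L a) - σ (x - algebraMap F L a) := by
      rw [map_sub, σ.commutes]; ring
    rw [e]
    exact val_sub_lt_one hxa ((decomposition_val_lt_one_iff A hσ _).mpr hxa)
  have hdy : A.valuation (y - σ y) < 1 := by
    have e : y - σ y = (y - algebraMap F L b) - σ (y - algebraMap F L b) := by
      rw [map_sub, σ.commutes]; ring
    rw [e]
    exact val_sub_lt_one hyb ((decomposition_val_lt_one_iff A hσ _).mpr hyb)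
  have hns := nonsingular_red_of_val_Δ hW h.1 hx hy hΔ
  rw [algEquiv_smul_def, Point.map_some]
  have h2 : (W⁄L).Nonsingular (σ.toAlgHom x) (σ.toAlgHom y) :=
    (W.baseChange_nonsingular σ.toAlgHom.injective ..).mpr h
  have htors2 : n • Point.some (σ.toAlgHom x) (σ.toAlgHom y) h2 = 0 := by
    have e : Point.some (σ.toAlgHom x) (σ.toAlgHom y) h2
        = Point.map (W' := W) σ.toAlgHom (Point.some x y h) := rfl
    rw [e, ← map_nsmul, htors, _root_.map_zero]
  symm
  exact eq_of_congr_of_nsmul_eq hW h h2 hx hy hσx hσy hdx hdy hns hn (by rw [htors, htors2])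

end decomposition

end Fermat.Agent.S41lib.NE
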