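/-
S41 library, block NE (helper5), brick NE2: if an odd prime `p ≠ ℓ` divides the number of points of
the reduction modulo a good prime `ℓ` of an integral Weierstrass model, then for every valuation
subring `A` of an algebraically closed field `K ⊇ ℚ` lying over `ℓ` there is a nonzero `p`-torsion
point over `K` fixed by the whole decomposition group of `A` (in particular by every Frobenius
element at `A`).
-/
import Mathlib
import Fermat.Prelude.Def_FLTPrelim_Modularity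
import Fermat.Agent.S13lib.LadderInt
import Fermat.Agent.S41lib.NE.Lift

set_option autoImplicit false

namespace Fermat.Agent.S41lib.NE

open WeierstrassCurve WeierstrassCurve.Affine WeierstrassCurve.Affine.Point Polynomial
open Fermat.Agent.S05lib Fermat.Agent.S13lib

universe u

section

variable (Wz : WeierstrassCurve ℤ)

/-- `p ∣ a_ℓ - (1 + ℓ)` iff `p` divides the number of points of the reduction. -/
lemma dvd_apOfModel_sub_iff (ℓ p : ℕ) :
    (p : ℤ) ∣ Wz.apOfModel ℓ - (1 + (ℓ : ℤ)) ↔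
      p ∣ Nat.card (Wz.reductionMod ℓ).toAffine.Point := by
  have e : Wz.apOfModel ℓ - (1 + (ℓ : ℤ)) =
      -((Nat.card (Wz.reductionMod ℓ).toAffine.Point : ℕ) : ℤ) := by
    simp only [WeierstrassCurve.apOfModel, WeierstrassCurve.traceOfFrobenius,
      WeierstrassCurve.card, Nat.card_zmod]
    ring
  rw [e, dvd_neg, Int.natCast_dvd_natCast]

variable {K : Type u} [Field K] [Algebra ℚ K]

/-- Coefficients of the base change to `K` of an integral model. -/
lemma baseChange_int_coeffs :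
    ((Wz.map (Int.castRingHom ℚ) : WeierstrassCurve ℚ)⁄K).a₁ = (Wz.a₁ : K) ∧
    ((Wz.map (Int.castRingHom ℚ) : WeierstrassCurve ℚ)⁄K).a₂ = (Wz.a₂ : K) ∧
    ((Wz.map (Int.castRingHom ℚ) : WeierstrassCurve ℚ)⁄K).a₃ = (Wz.a₃ : K) ∧
    ((Wz.map (Int.castRingHom ℚ) : WeierstrassCurve ℚ)⁄K).a₄ = (Wz.a₄ : K) ∧
    ((Wz.map (Int.castRingHom ℚ) : WeierstrassCurve ℚ)⁄K).a₆ = (Wz.a₆ : K) ∧
    ((Wz.map (Int.castRingHom ℚ) : WeierstrassCurve ℚ)⁄K).Δ = (Wz.Δ : K) := by
  have e : ((Wz.map (Int.castRingHom ℚ) : WeierstrassCurve ℚ)⁄K) = Wz.map (algebraMap ℤ K) :=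
    baseChange_map_int Wz
  rw [e]
  refine ⟨?_, ?_, ?_, ?_, ?_, ?_⟩ <;> simp [WeierstrassCurve.map_Δ]

lemma integralModel_baseChange_int (A : ValuationSubring K) :
    IntegralModel A.valuation ((Wz.map (Int.castRingHom ℚ) : WeierstrassCurve ℚ)⁄K).toAffine := by
  obtain ⟨h1, h2, h3, h4, h6, -⟩ := baseChange_int_coeffs Wz (K := K)
  exact ⟨by rw [h1]; exact val_intCast_le_one _, by rw [h2]; exact val_intCast_le_one _,
    by rw [h3]; exact val_intCast_le_one _, by rw [h4]; exact val_intCast_le_one _,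
    by rw [h6]; exact val_intCast_le_one _⟩

end

/-- **Brick NE2.** -/
theorem exists_fixed_torsion_point (Wz : WeierstrassCurve ℤ) {ℓ p : ℕ} (hℓ : ℓ.Prime)
    (hp : p.Prime) (hp2 : p ≠ 2) (hℓp : ℓ ≠ p) (hgood : Wz.IsGoodPrimeFor ℓ)
    (hdvd : (p : ℤ) ∣ Wz.apOfModel ℓ - (1 + (ℓ : ℤ)))
    {K : Type u} [Field K] [DecidableEq K] [Algebra ℚ K] [IsAlgClosed K]
    (A : ValuationSubring K) (hA : A.LiesOverPrime ℓ) :
    ∃ P : ((Wz.map (Int.castRingHom ℚ) : WeierstrassCurve ℚ)⁄K).toAffine.Point,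
      P ≠ 0 ∧ p • P = 0 ∧
        ∀ σ : K ≃ₐ[ℚ] K, σ ∈ A.decompositionSubgroup ℚ → σ • P = P := by
  have : Fact ℓ.Prime := ⟨hℓ⟩
  have : Fact p.Prime := ⟨hp⟩
  obtain ⟨m, rfl⟩ : ∃ m, p = 2 * m + 1 := by
    rcases hp.eq_two_or_odd' with h | h
    · exact absurd h hp2
    · exact h
  -- a point of order `p` on the reduction
  rw [dvd_apOfModel_sub_iff] at hdvd
  obtain ⟨Q, hQ⟩ := exists_prime_addOrderOf_dvd_card' (2 * m + 1) hdvd
  have hQ0 : Q ≠ 0 := by
    intro h0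
    rw [h0, addOrderOf_zero] at hQ
    rw [← hQ] at hp
    exact Nat.not_prime_one hp
  have hQtors : (2 * m + 1) • Q = 0 := by
    rw [← hQ]; exact addOrderOf_nsmul_eq_zero Q
  rcases Q with _ | ⟨x₀, y₀, h₀⟩
  · exact absurd rfl hQ0
  obtain ⟨a, rfl⟩ := ZMod.intCast_surjective x₀
  obtain ⟨b, rfl⟩ := ZMod.intCast_surjective y₀
  -- the two integers divisible by `ℓ`
  have hN₁ : (ℓ : ℤ) ∣ b ^ 2 + Wz.a₁ * a * b + Wz.a₃ * b -
      (a ^ 3 + Wz.a₂ * a ^ 2 + Wz.a₄ * a + Wz.a₆) := by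
    rw [← ZMod.intCast_zmod_eq_zero_iff_dvd]
    have := h₀.1
    rw [Affine.equation_iff] at this
    simp only [WeierstrassCurve.reductionMod, WeierstrassCurve.map_a₁, WeierstrassCurve.map_a₂,
      WeierstrassCurve.map_a₃, WeierstrassCurve.map_a₄, WeierstrassCurve.map_a₆,
      eq_intCast] at this
    push_cast
    linear_combination this
  have hN₂ : (ℓ : ℤ) ∣ (ladF Wz m).eval a := by
    rw [← ZMod.intCast_zmod_eq_zero_iff_dvd]
    have h1 := (odd_nsmul_eq_zero_iff_ladF (Wz.reductionMod ℓ).toAffine h₀ m).mp hQtors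
    rw [WeierstrassCurve.reductionMod, ← ladF_map] at h1
    have h2 := Polynomial.eval_intCast_map (Int.castRingHom (ZMod ℓ)) (ladF Wz m) a
    rw [Int.cast_id] at h2
    rw [h1] at h2
    simpa using h2.symm
  -- over `K`
  obtain ⟨c1, c2, c3, c4, c6, cΔ⟩ := baseChange_int_coeffs Wz (K := K)
  have hW := integralModel_baseChange_int Wz A
  have hΔ : A.valuation ((Wz.map (Int.castRingHom ℚ) : WeierstrassCurve ℚ)⁄K).Δ = 1 := by
    rw [cΔ]
    exact (val_intCast_eq_one_iff hℓ hA _).mpr hgood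
  have hpunit : A.valuation (((2 * m + 1 : ℕ)) : K) = 1 :=
    val_natCast_eq_one_of_not_dvd hℓ hA (by
      intro h
      rcases (Nat.dvd_prime hp).mp h with h1 | h1
      · exact hℓ.one_lt.ne' h1
      · exact hℓp h1)
  have hpunit' : A.valuation (2 * (m : K) + 1) = 1 := by
    have e : (2 * (m : K) + 1) = ((2 * m + 1 : ℕ) : K) := by push_cast; ring
    rw [e]; exact hpunit
  have heqK : A.valuation ((b : K) ^ 2 +
      ((Wz.map (Int.castRingHom ℚ) : WeierstrassCurve ℚ)⁄K).a₁ * (a : K) * (b : K) +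
      ((Wz.map (Int.castRingHom ℚ) : WeierstrassCurve ℚ)⁄K).a₃ * (b : K) -
      ((a : K) ^ 3 + ((Wz.map (Int.castRingHom ℚ) : WeierstrassCurve ℚ)⁄K).a₂ * (a : K) ^ 2 +
        ((Wz.map (Int.castRingHom ℚ) : WeierstrassCurve ℚ)⁄K).a₄ * (a : K) +
        ((Wz.map (Int.castRingHom ℚ) : WeierstrassCurve ℚ)⁄K).a₆)) < 1 := by
    rw [c1, c2, c3, c4, c6]
    have := val_intCast_lt_one_of_dvd (L := K) hℓ hA hN₁
    push_cast at this
    exact this
  have htorsK : A.valuation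
      ((ladF ((Wz.map (Int.castRingHom ℚ) : WeierstrassCurve ℚ)⁄K) m).eval (a : K)) < 1 := by
    have e : ((Wz.map (Int.castRingHom ℚ) : WeierstrassCurve ℚ)⁄K) = Wz.map (algebraMap ℤ K) :=
      baseChange_map_int Wz
    rw [e, ← ladF_map]
    have h2 := Polynomial.eval_intCast_map (algebraMap ℤ K) (ladF Wz m) a
    rw [Int.cast_id] at h2
    rw [h2, eq_intCast]
    exact val_intCast_lt_one_of_dvd hℓ hA hN₂
  obtain ⟨x, y, h, htors, hxa, hyb⟩ :=
    exists_torsion_lift (W := ((Wz.map (Int.castRingHom ℚ) : WeierstrassCurve ℚ)⁄K).toAffine)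
      hW hΔ m hpunit' (val_intCast_le_one a) (val_intCast_le_one b) heqK htorsK
  refine ⟨Point.some x y h, Point.some_ne_zero h, htors, fun σ hσ => ?_⟩
  refine smul_eq_self_of_congr_base (F := ℚ) (L := K)
    (W := (Wz.map (Int.castRingHom ℚ) : WeierstrassCurve ℚ)) A hW hΔ hpunit h htors (a : ℚ) (b : ℚ)
    ?_ ?_ hσ
  · rw [eq_ratCast]; push_cast; exact hxa
  · rw [eq_ratCast]; push_cast; exact hyb

end Fermat.Agent.S41lib.NE
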