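/-
S41 library, block NE (helper5), brick NE3: pure linear algebra.

A multiplicatively closed family of endomorphisms of a two-dimensional vector space, each of
which fixes a nonzero vector, has a common eigenvector (i.e. stabilises a line).
-/
import Mathlib

set_option autoImplicit false

namespace Fermat.Agent.S41lib.NE

open Matrix

section core

variable {k : Type*} [Field k]

/-- `det (g - 1) = 0` for a `2 × 2` matrix, in the expanded form `tr g = 1 + det g`. -/
def EigOne (g : Matrix (Fin 2) (Fin 2) k) : Prop :=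
  g 0 0 + g 1 1 = 1 + (g 0 0 * g 1 1 - g 0 1 * g 1 0)

lemma eigOne_of_fixed {g : Matrix (Fin 2) (Fin 2) k} {v : Fin 2 → k} (hv : v ≠ 0)
    (h : g *ᵥ v = v) : EigOne g := by
  have h0 : (g - 1).det = 0 := by
    rw [← Matrix.exists_mulVec_eq_zero_iff]
    exact ⟨v, hv, by rw [Matrix.sub_mulVec, h, Matrix.one_mulVec, sub_self]⟩
  rw [Matrix.det_fin_two] at h0
  simp only [Matrix.sub_apply, Matrix.one_apply_eq, ne_eq, zero_ne_one, not_false_eq_true,
    Matrix.one_apply_ne, one_ne_zero, sub_zero] at h0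
  unfold EigOne
  linear_combination (-1 : k) * h0

/-- Case B: the family contains `diag(1, δ)` with `δ ≠ 1`. -/
lemma core_B (T : Set (Matrix (Fin 2) (Fin 2) k)) (hmul : ∀ g ∈ T, ∀ h ∈ T, g * h ∈ T)
    (hT : ∀ g ∈ T, EigOne g) (δ : k) (hδ : δ ≠ 1) (hg₀ : !![1, 0; 0, δ] ∈ T) :
    (∀ h ∈ T, h 1 0 = 0) ∨ (∀ h ∈ T, h 0 1 = 0) := by
  have h1 : ∀ h ∈ T, h 0 0 = 1 ∧ h 0 1 * h 1 0 = 0 := by
    intro h hh
    have e1 := hT h hh
    have e2 := hT _ (hmul _ hg₀ h hh)
    unfold EigOne at e1 e2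
    simp only [Matrix.mul_apply, Fin.sum_univ_two, Matrix.of_apply, Matrix.cons_val', 
      Matrix.cons_val_zero, Matrix.cons_val_one, Matrix.cons_val_fin_one] at e2
    have hδ' : (1 - δ) ≠ 0 := sub_ne_zero.mpr (Ne.symm hδ)
    have ha : h 0 0 = 1 := by
      apply mul_right_cancel₀ hδ'
      linear_combination e2 - δ * e1
    refine ⟨ha, ?_⟩
    rw [ha] at e1
    linear_combination e1
  by_contra hcon
  rw [not_or] at hcon
  simp only [not_forall] at hcon
  obtain ⟨⟨h₁, hh₁, hc₁⟩, ⟨h₂, hh₂, hb₂⟩⟩ := hcon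
  have hc₁ : h₁ 1 0 ≠ 0 := hc₁
  have hb₂ : h₂ 0 1 ≠ 0 := hb₂
  obtain ⟨ha₁, hbc₁⟩ := h1 h₁ hh₁
  obtain ⟨ha₂, hbc₂⟩ := h1 h₂ hh₂
  have hb₁ : h₁ 0 1 = 0 := (mul_eq_zero.mp hbc₁).resolve_right hc₁
  have hc₂ : h₂ 1 0 = 0 := (mul_eq_zero.mp hbc₂).resolve_left hb₂
  obtain ⟨-, hbc⟩ := h1 _ (hmul h₁ hh₁ h₂ hh₂)
  simp only [Matrix.mul_apply, Fin.sum_univ_two, ha₁, ha₂, hb₁, hc₂] at hbc
  have : h₂ 0 1 * h₁ 1 0 = 0 := by linear_combination hbc
  rcases mul_eq_zero.mp this with h | h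
  · exact hb₂ h
  · exact hc₁ h

/-- Case A: all determinants are `1` and the family contains a nontrivial unipotent
`[[1, β], [0, 1]]`. -/
lemma core_A (T : Set (Matrix (Fin 2) (Fin 2) k)) (hmul : ∀ g ∈ T, ∀ h ∈ T, g * h ∈ T)
    (hT : ∀ g ∈ T, EigOne g) (hdet : ∀ g ∈ T, g 0 0 * g 1 1 - g 0 1 * g 1 0 = 1)
    (β : k) (hβ : β ≠ 0) (hg₀ : !![1, β; 0, 1] ∈ T) :
    ∀ h ∈ T, h 1 0 = 0 := by
  intro h hh
  have e1 := hT h hh
  have e2 := hT _ (hmul _ hg₀ h hh)
  have d1 := hdet h hh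
  have d2 := hdet _ (hmul _ hg₀ h hh)
  unfold EigOne at e1 e2
  rw [d1] at e1
  rw [d2] at e2
  simp only [Matrix.mul_apply, Fin.sum_univ_two, Matrix.of_apply, Matrix.cons_val', 
    Matrix.cons_val_zero, Matrix.cons_val_one, Matrix.cons_val_fin_one] at e2
  apply mul_left_cancel₀ hβ
  linear_combination e2 - e1

end core


section abstract

open Module

variable {k : Type*} [Field k] {V : Type*} [AddCommGroup V] [Module k V]

lemma eigOne_toMatrix (b : Basis (Fin 2) k V) (f : Module.End k V) {v : V} (hv : v ≠ 0)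
    (hf : f v = v) : EigOne (LinearMap.toMatrix b b f) := by
  apply eigOne_of_fixed (v := ⇑(b.repr v))
  · intro h
    apply hv
    have h2 : b.repr v = 0 := by
      ext i
      exact congrFun h i
    exact b.repr.map_eq_zero_iff.mp h2
  · rw [LinearMap.toMatrix_mulVec_repr, hf]

lemma apply_basis_zero (b : Basis (Fin 2) k V) (f : Module.End k V)
    (h : LinearMap.toMatrix b b f 1 0 = 0) : f (b 0) = (LinearMap.toMatrix b b f 0 0) • b 0 := by
  conv_lhs => rw [← b.sum_repr (f (b 0))]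
  rw [Fin.sum_univ_two, ← LinearMap.toMatrix_apply, ← LinearMap.toMatrix_apply, h, zero_smul,
    add_zero]

lemma apply_basis_one (b : Basis (Fin 2) k V) (f : Module.End k V)
    (h : LinearMap.toMatrix b b f 0 1 = 0) : f (b 1) = (LinearMap.toMatrix b b f 1 1) • b 1 := by
  conv_lhs => rw [← b.sum_repr (f (b 1))]
  rw [Fin.sum_univ_two, ← LinearMap.toMatrix_apply, ← LinearMap.toMatrix_apply, h, zero_smul,
    zero_add]

lemma toMatrix_col (b : Basis (Fin 2) k V) (f : Module.End k V) (j : Fin 2) (c₀ c₁ : k)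
    (h : f (b j) = c₀ • b 0 + c₁ • b 1) :
    LinearMap.toMatrix b b f 0 j = c₀ ∧ LinearMap.toMatrix b b f 1 j = c₁ := by
  rw [LinearMap.toMatrix_apply, LinearMap.toMatrix_apply, h]
  simp

lemma exists_basis_pair (hV : finrank k V = 2) {v₁ v₂ : V}
    (h : LinearIndependent k ![v₁, v₂]) : ∃ b : Basis (Fin 2) k V, b 0 = v₁ ∧ b 1 = v₂ := by
  refine ⟨basisOfLinearIndependentOfCardEqFinrank h (by simp [hV]), ?_, ?_⟩
  · rw [coe_basisOfLinearIndependentOfCardEqFinrank]; rfl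
  · rw [coe_basisOfLinearIndependentOfCardEqFinrank]; rfl


/-- **Brick NE3.** A monoid acting linearly on a two-dimensional vector space such that every
element fixes a nonzero vector has a common eigenvector. -/
theorem exists_common_eigenvector (hV : finrank k V = 2) {M : Type*} [Monoid M]
    (ρ : M →* Module.End k V) (hfix : ∀ g, ∃ v : V, v ≠ 0 ∧ ρ g v = v) :
    ∃ v : V, v ≠ 0 ∧ ∀ g, ∃ c : k, ρ g v = c • v := by
  have : Module.Finite k V := Module.finite_of_finrank_pos (by omega)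
  have hfam : ∀ b : Basis (Fin 2) k V,
      (∀ g ∈ Set.range (fun g => LinearMap.toMatrix b b (ρ g)),
        ∀ h ∈ Set.range (fun g => LinearMap.toMatrix b b (ρ g)),
          g * h ∈ Set.range (fun g => LinearMap.toMatrix b b (ρ g))) ∧
      (∀ g ∈ Set.range (fun g => LinearMap.toMatrix b b (ρ g)), EigOne g) := by
    intro b
    constructor
    · rintro _ ⟨g, rfl⟩ _ ⟨h, rfl⟩
      exact ⟨g * h, by simp only [map_mul, LinearMap.toMatrix_mul]⟩
    · rintro _ ⟨g, rfl⟩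
      obtain ⟨v, hv, hgv⟩ := hfix g
      exact eigOne_toMatrix b (ρ g) hv hgv
  by_cases hdet : ∀ g, LinearMap.det (ρ g) = 1
  · by_cases hall : ∀ g, ρ g = 1
    · obtain ⟨v, hv⟩ : ∃ v : V, v ≠ 0 := by
        have : 0 < finrank k V := by omega
        exact Module.finrank_pos_iff_exists_ne_zero.mp this
      exact ⟨v, hv, fun g => ⟨1, by rw [hall g, one_smul]; rfl⟩⟩
    · simp only [not_forall] at hall
      obtain ⟨g₀, hg₀⟩ := hall
      obtain ⟨v₁, hv₁, hgv₁⟩ := hfix g₀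
      obtain ⟨w, hw⟩ := exists_linearIndependent_pair_of_one_lt_finrank (R := k) (by omega) hv₁
      obtain ⟨b, hb0, hb1⟩ := exists_basis_pair hV hw
      have hcol0 := toMatrix_col b (ρ g₀) 0 1 0 (by rw [hb0, hgv₁]; simp)
      have hδ : LinearMap.toMatrix b b (ρ g₀) 1 1 = 1 := by
        have := hdet g₀
        rw [← LinearMap.det_toMatrix b, Matrix.det_fin_two, hcol0.1, hcol0.2] at this
        linear_combination this
      have hβ : LinearMap.toMatrix b b (ρ g₀) 0 1 ≠ 0 := by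
        intro h0
        apply hg₀
        apply (LinearMap.toMatrix b b).injective
        rw [LinearMap.toMatrix_one]
        ext i j
        fin_cases i <;> fin_cases j <;> simp [hcol0.1, hcol0.2, hδ, h0]
      have hmem : !![1, LinearMap.toMatrix b b (ρ g₀) 0 1; 0, 1] ∈
          Set.range (fun g => LinearMap.toMatrix b b (ρ g)) := by
        refine ⟨g₀, ?_⟩
        ext i j
        fin_cases i <;> fin_cases j <;> simp [hcol0.1, hcol0.2, hδ]
      have hdet' : ∀ g ∈ Set.range (fun g => LinearMap.toMatrix b b (ρ g)),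
          g 0 0 * g 1 1 - g 0 1 * g 1 0 = 1 := by
        rintro _ ⟨g, rfl⟩
        have := hdet g
        rw [← LinearMap.det_toMatrix b, Matrix.det_fin_two] at this
        exact this
      have key := core_A _ (hfam b).1 (hfam b).2 hdet' _ hβ hmem
      refine ⟨v₁, hv₁, fun g => ⟨LinearMap.toMatrix b b (ρ g) 0 0, ?_⟩⟩
      rw [← hb0]
      exact apply_basis_zero b (ρ g) (key _ ⟨g, rfl⟩)
  · simp only [not_forall] at hdet
    obtain ⟨g₀, hg₀⟩ := hdet
    obtain ⟨v₁, hv₁, hgv₁⟩ := hfix g₀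
    obtain ⟨w, hw⟩ := exists_linearIndependent_pair_of_one_lt_finrank (R := k) (by omega) hv₁
    obtain ⟨b, hb0, hb1⟩ := exists_basis_pair hV hw
    have hcol0 := toMatrix_col b (ρ g₀) 0 1 0 (by rw [hb0, hgv₁]; simp)
    obtain ⟨β, hβdef⟩ : ∃ β, β = LinearMap.toMatrix b b (ρ g₀) 0 1 := ⟨_, rfl⟩
    obtain ⟨δ, hδdef⟩ : ∃ δ, δ = LinearMap.toMatrix b b (ρ g₀) 1 1 := ⟨_, rfl⟩
    have hδdet : LinearMap.det (ρ g₀) = δ := by
      rw [← LinearMap.det_toMatrix b, Matrix.det_fin_two, hcol0.1, hcol0.2, hδdef]; ring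
    have hδ1 : δ ≠ 1 := by rw [← hδdet]; exact hg₀
    have hgw : ρ g₀ w = β • v₁ + δ • w := by
      have h1 : ρ g₀ (b 1) = β • b 0 + δ • b 1 := by
        conv_lhs => rw [← b.sum_repr (ρ g₀ (b 1))]
        rw [Fin.sum_univ_two, ← LinearMap.toMatrix_apply, ← LinearMap.toMatrix_apply, hβdef,
          hδdef]
      rw [hb0, hb1] at h1
      exact h1
    obtain ⟨v₂, hv₂⟩ : ∃ v₂, v₂ = (δ - 1) • w + β • v₁ := ⟨_, rfl⟩
    have hgv₂ : ρ g₀ v₂ = δ • v₂ := by
      rw [hv₂, map_add, map_smul, map_smul, hgw, hgv₁]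
      module
    have hli : LinearIndependent k ![v₁, v₂] := by
      rw [LinearIndependent.pair_iff] at hw ⊢
      intro s t hst
      have h2 := hw (s + t * β) (t * (δ - 1)) (by rw [← hst, hv₂]; module)
      have ht : t = 0 := by
        rcases mul_eq_zero.mp h2.2 with h | h
        · exact h
        · exact absurd (sub_eq_zero.mp h) hδ1
      refine ⟨?_, ht⟩
      have h3 := h2.1
      rw [ht] at h3
      simpa using h3
    obtain ⟨b', hb'0, hb'1⟩ := exists_basis_pair hV hli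
    have hc0 := toMatrix_col b' (ρ g₀) 0 1 0 (by rw [hb'0, hgv₁]; simp)
    have hc1 := toMatrix_col b' (ρ g₀) 1 0 δ (by rw [hb'1, hgv₂]; simp)
    have hmem : !![1, 0; 0, δ] ∈ Set.range (fun g => LinearMap.toMatrix b' b' (ρ g)) := by
      refine ⟨g₀, ?_⟩
      ext i j
      fin_cases i <;> fin_cases j <;> simp [hc0.1, hc0.2, hc1.1, hc1.2]
    rcases core_B _ (hfam b').1 (hfam b').2 δ hδ1 hmem with key | key
    · refine ⟨v₁, hv₁, fun g => ⟨LinearMap.toMatrix b' b' (ρ g) 0 0, ?_⟩⟩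
      rw [← hb'0]
      exact apply_basis_zero b' (ρ g) (key _ ⟨g, rfl⟩)
    · refine ⟨v₂, ?_, fun g => ⟨LinearMap.toMatrix b' b' (ρ g) 1 1, ?_⟩⟩
      · rw [← hb'1]; exact b'.ne_zero 1
      · rw [← hb'1]
        exact apply_basis_one b' (ρ g) (key _ ⟨g, rfl⟩)

end abstract

end Fermat.Agent.S41lib.NE
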