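/-
S41 library, block NE (helper5), brick NE4 = OUTPUT of the block: "non-Eisenstein from `hirr`".

If the mod `p` Galois representation of an elliptic curve `E/ℚ` (`p` odd) is irreducible, then
for every finite set `S₀` of primes there is a prime `ℓ ∉ S₀`, `ℓ ≠ p`, of good reduction for the
integral model `W` with `a_ℓ(W) ≢ 1 + ℓ (mod p)`.

Proof.  Otherwise `p ∣ #W̃(𝔽_ℓ)` for all good `ℓ ∉ S₀`; by NE2 every Frobenius element at such an
`ℓ` fixes a nonzero point of `E[p]`; by the weak Chebotarev theorem (`S31lib.WC.brickWC`) every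
element of `G_ℚ` does; `#E[p] = p²` (NE1), so by NE3 there is a Galois-stable line: contradiction.
-/
import Mathlib
import Fermat.Prelude.Def_FLTPrelim_Modularity
import Fermat.Prelude.Def_FLTPrelim_GaloisRep
import Fermat.Prelude.Def_EllipticCurve_FrobeniusTrace
import Fermat.Agent.S51lib.Transfer
import Fermat.Agent.S31lib.WC.Export
import Fermat.Agent.S41lib.NE.StableLine
import Fermat.Agent.S41lib.NE.Reduction
import Fermat.Agent.S41lib.NE.TorsionCard

set_option autoImplicit false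
set_option linter.unusedSectionVars false

noncomputable section

namespace Fermat.Agent.S41lib.NE

open WeierstrassCurve WeierstrassCurve.Affine WeierstrassCurve.Affine.Point

section coords

/-- The `y`-coordinate of a point (junk value `0` at infinity). -/
def yOf {K : Type*} [Field K] (W : Affine K) : W.Point → K
  | .zero => 0
  | .some _ y _ => y

variable {F K : Type*} [Field F] [Field K] [DecidableEq K] [Algebra F K] {W : Affine F}

/-- Two automorphisms agreeing on the coordinates of a point move it to the same point. -/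
lemma smul_eq_smul_of_coords (σ τ : K ≃ₐ[F] K) (P : (W⁄K).Point)
    (hx : σ (xOf (W⁄K) P) = τ (xOf (W⁄K) P)) (hy : σ (yOf (W⁄K) P) = τ (yOf (W⁄K) P)) :
    σ • P = τ • P := by
  rcases P with _ | ⟨x, y, h⟩
  · rfl
  · rw [algEquiv_smul_def, algEquiv_smul_def, Point.map_some, Point.map_some]
    have hx' : σ x = τ x := hx
    have hy' : σ y = τ y := hy
    simp only [Point.some.injEq]
    exact ⟨hx', hy'⟩

lemma pow_smul_eq_self (σ : K ≃ₐ[F] K) (P : (W⁄K).Point) (h : σ • P = P) (j : ℕ) :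
    (σ ^ j) • P = P := by
  induction j with
  | zero => rw [pow_zero, one_smul]
  | succ j ih => rw [pow_succ, mul_smul, h, ih]

end coords


section main

/-- `ℚ̄` -/
local notation "Qb" => AlgebraicClosure ℚ
/-- `G_ℚ` -/
local notation "GQ" => (AlgebraicClosure ℚ ≃ₐ[ℚ] AlgebraicClosure ℚ)

variable (Wz : WeierstrassCurve ℤ)

/-- If `p ∣ #W̃(𝔽_ℓ)` for all good `ℓ` outside a finite set, every element of `G_ℚ` fixes a
nonzero `p`-torsion point. -/
theorem exists_fixed_of_forall_dvd {p : ℕ} (hp : p.Prime) (hp2 : p ≠ 2) (hΔ : Wz.Δ ≠ 0)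
    (S₀ : Finset ℕ)
    (hfin : Finite (Submodule.torsionBy ℤ
      ((Wz.map (Int.castRingHom ℚ) : WeierstrassCurve ℚ)⁄Qb).Point p))
    (hall : ∀ ℓ : ℕ, ℓ.Prime → ℓ ∉ S₀ → ℓ ≠ p → Wz.IsGoodPrimeFor ℓ →
      (p : ℤ) ∣ Wz.apOfModel ℓ - (1 + (ℓ : ℤ)))
    (σ : GQ) :
    ∃ P : ((Wz.map (Int.castRingHom ℚ) : WeierstrassCurve ℚ)⁄Qb).Point,
      P ≠ 0 ∧ p • P = 0 ∧ σ • P = P := by
  classical
  -- the field generated by the coordinates of the `p`-torsion points
  set S : Set Qb :=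
    Set.range (fun P : Submodule.torsionBy ℤ
      ((Wz.map (Int.castRingHom ℚ) : WeierstrassCurve ℚ)⁄Qb).Point p => xOf _ P.1) ∪
    Set.range (fun P : Submodule.torsionBy ℤ
      ((Wz.map (Int.castRingHom ℚ) : WeierstrassCurve ℚ)⁄Qb).Point p => yOf _ P.1) with hS
  have hSfin : S.Finite := (Set.finite_range _).union (Set.finite_range _)
  have : Finite S := hSfin.to_subtype
  have hL : FiniteDimensional ℚ (IntermediateField.adjoin ℚ S) :=
    IntermediateField.finiteDimensional_adjoin (fun x _ => Algebra.IsIntegral.isIntegral x)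
  obtain ⟨ℓ, A, φ, j, hℓ, hℓS, hA, hφ, hφσ⟩ :=
    Fermat.Agent.S31lib.WC.brickWC (S₀ ∪ {p} ∪ Wz.Δ.natAbs.primeFactors)
      (IntermediateField.adjoin ℚ S) hL σ
  simp only [Finset.mem_union, Finset.mem_singleton, not_or] at hℓS
  obtain ⟨⟨hℓS₀, hℓp⟩, hℓΔ⟩ := hℓS
  have hgood : Wz.IsGoodPrimeFor ℓ := by
    intro hdvd
    apply hℓΔ
    rw [Nat.mem_primeFactors]
    exact ⟨hℓ, Int.natCast_dvd.mp hdvd, Int.natAbs_ne_zero.mpr hΔ⟩
  obtain ⟨P, hP0, hPtors, hPfix⟩ :=
    exists_fixed_torsion_point Wz hℓ hp hp2 hℓp hgood (hall ℓ hℓ hℓS₀ hℓp hgood) A hA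
  refine ⟨P, hP0, hPtors, ?_⟩
  have h1 := hPfix φ hφ.mem_decompositionSubgroup
  have h2 := pow_smul_eq_self φ P h1 j
  have hPmem : P ∈ Submodule.torsionBy ℤ
      ((Wz.map (Int.castRingHom ℚ) : WeierstrassCurve ℚ)⁄Qb).Point p := by
    rw [Submodule.mem_torsionBy_iff, natCast_zsmul]; exact hPtors
  have hxL : xOf _ P ∈ IntermediateField.adjoin ℚ S :=
    IntermediateField.subset_adjoin ℚ S (Or.inl ⟨⟨P, hPmem⟩, rfl⟩)
  have hyL : yOf _ P ∈ IntermediateField.adjoin ℚ S :=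
    IntermediateField.subset_adjoin ℚ S (Or.inr ⟨⟨P, hPmem⟩, rfl⟩)
  rw [← smul_eq_smul_of_coords (φ ^ j) σ P (hφσ _ hxL) (hφσ _ hyL)]
  exact h2


/-- **Block NE, output.** Non-Eisenstein from irreducibility. -/
theorem exists_good_prime_not_eisenstein (E : WeierstrassCurve ℚ) [E.IsElliptic]
    {W : WeierstrassCurve ℤ} (hW : W.IsIntegralModelOf E) {p : ℕ} (hp : p.Prime) (hp2 : p ≠ 2)
    (hirr : GaloisRepIsIrreducible (K := AlgebraicClosure ℚ) ℚ E p) (S₀ : Finset ℕ) :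
    ∃ ℓ : ℕ, ℓ.Prime ∧ ℓ ∉ S₀ ∧ ℓ ≠ p ∧ W.IsGoodPrimeFor ℓ ∧
      ¬ ((p : ℤ) ∣ (W.apOfModel ℓ - (1 + (ℓ : ℤ)))) := by
  classical
  obtain ⟨C, hC⟩ := hW
  -- transfer irreducibility to the integral model
  have hirr' : GaloisRepIsIrreducible (K := Qb) ℚ
      (W.map (Int.castRingHom ℚ) : WeierstrassCurve ℚ) p := by
    rw [← hC]
    exact (Fermat.Agent.S51lib.galoisRepIsIrreducible_variableChange_iff E C p).mpr hirr
  -- discriminants
  have hΔq : (W.map (Int.castRingHom ℚ) : WeierstrassCurve ℚ).Δ ≠ 0 := by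
    rw [← hC, WeierstrassCurve.variableChange_Δ]
    exact mul_ne_zero (pow_ne_zero _ (Units.ne_zero _)) (E.isUnit_Δ.ne_zero)
  have hΔz : W.Δ ≠ 0 := by
    intro h0
    apply hΔq
    rw [WeierstrassCurve.map_Δ, h0, _root_.map_zero]
  have hΔb : ((W.map (Int.castRingHom ℚ) : WeierstrassCurve ℚ)⁄Qb).Δ ≠ 0 := by
    have e : ((W.map (Int.castRingHom ℚ) : WeierstrassCurve ℚ)⁄Qb).Δ =
        algebraMap ℚ Qb (W.map (Int.castRingHom ℚ) : WeierstrassCurve ℚ).Δ :=
      WeierstrassCurve.map_Δ _ _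
    rw [e]
    exact (map_ne_zero_iff _ (algebraMap ℚ Qb).injective).mpr hΔq
  -- the torsion has `p ^ 2` elements
  have hcard := card_torsionBy_eq_sq
    ((W.map (Int.castRingHom ℚ) : WeierstrassCurve ℚ)⁄Qb) hΔb p hp.two_le
  have hfin : Finite (Submodule.torsionBy ℤ
      ((W.map (Int.castRingHom ℚ) : WeierstrassCurve ℚ)⁄Qb).Point p) :=
    Nat.finite_of_card_ne_zero (by rw [hcard]; exact pow_ne_zero 2 hp.ne_zero)
  have : Fact p.Prime := ⟨hp⟩
  have hrank : Module.finrank (ZMod p) (Submodule.torsionBy ℤ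
      ((W.map (Int.castRingHom ℚ) : WeierstrassCurve ℚ)⁄Qb).Point p) = 2 := by
    have h1 := Module.natCard_eq_pow_finrank (K := ZMod p) (V := Submodule.torsionBy ℤ
      ((W.map (Int.castRingHom ℚ) : WeierstrassCurve ℚ)⁄Qb).Point p)
    rw [hcard, Nat.card_zmod] at h1
    exact (Nat.pow_right_injective hp.two_le h1).symm
  by_contra hcon
  have hall : ∀ ℓ : ℕ, ℓ.Prime → ℓ ∉ S₀ → ℓ ≠ p → W.IsGoodPrimeFor ℓ →
      (p : ℤ) ∣ W.apOfModel ℓ - (1 + (ℓ : ℤ)) := by
    intro ℓ hℓ hℓS hℓp hgood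
    by_contra hnd
    exact hcon ⟨ℓ, hℓ, hℓS, hℓp, hgood, hnd⟩
  -- every element of `G_ℚ` has a nonzero fixed vector
  have hfix : ∀ g : GQ, ∃ v : Submodule.torsionBy ℤ
      ((W.map (Int.castRingHom ℚ) : WeierstrassCurve ℚ)⁄Qb).Point p,
      v ≠ 0 ∧ galoisRepModuleEnd ℚ (W.map (Int.castRingHom ℚ) : WeierstrassCurve ℚ) p g v = v := by
    intro g
    obtain ⟨P, hP0, hPtors, hPfix⟩ := exists_fixed_of_forall_dvd W hp hp2 hΔz S₀ hfin hall g
    have hPmem : P ∈ Submodule.torsionBy ℤ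
        ((W.map (Int.castRingHom ℚ) : WeierstrassCurve ℚ)⁄Qb).Point p := by
      rw [Submodule.mem_torsionBy_iff, natCast_zsmul]; exact hPtors
    refine ⟨⟨P, hPmem⟩, ?_, ?_⟩
    · intro h0
      exact hP0 (congrArg Subtype.val h0)
    · rw [galoisRepModuleEnd_apply]
      exact Subtype.ext hPfix
  obtain ⟨v, hv, hstab⟩ := exists_common_eigenvector hrank
    (galoisRepModuleEnd ℚ (W.map (Int.castRingHom ℚ) : WeierstrassCurve ℚ) p) hfix
  -- the stable line
  have hNstab : IsGaloisStable ℚ (Submodule.span (ZMod p) {v}) := by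
    intro σ x hx
    obtain ⟨a, rfl⟩ := Submodule.mem_span_singleton.mp hx
    obtain ⟨c, hc⟩ := hstab σ
    rw [galoisRepModuleEnd_apply] at hc
    have e1 : σ • (a • v) = a • (σ • v) := smul_comm σ a v
    have e2 : a • (σ • v) = a • (c • v) := congrArg (fun w => a • w) hc
    refine Submodule.mem_span_singleton.mpr ⟨a * c, ?_⟩
    rw [mul_smul]
    exact (e1.trans e2).symm
  rcases hirr'.2 _ hNstab with h | h
  · apply hv
    have : v ∈ Submodule.span (ZMod p) {v} := Submodule.mem_span_singleton_self v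
    rw [h] at this
    exact (Submodule.mem_bot _).mp this
  · have h1 : Module.finrank (ZMod p) (Submodule.span (ZMod p) {v}) = 1 :=
      finrank_span_singleton hv
    rw [h, finrank_top, hrank] at h1
    omega

end main

end Fermat.Agent.S41lib.NE
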